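import Fermat.Agent.S59.Arch.SpecRT
import Fermat.Agent.S59.H659.FlatClosed

/-!
# S59 / cell BC (subtask 704, helper601): base change of the residual data `𝔽_p → k`

`residualBC : Arch.ResidualBCStatement` — for a residual representation `ρ̄` over `𝔽_p`, a finite
field `k` and `ι : 𝔽_p → k`:

* `ρ̄ ⊗ k` is unramified at `q` iff `ρ̄` is (`v ↦ 1 ⊗ v` is injective);
* `ρ̄ ⊗ k` is flat at `p` iff `ρ̄` is (descent / ascent of Hopf models along `ι`:
  `H779.FlatLevel.comap`, `H779.FlatLevel.baseChange`, with the Raynaud closure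
  `H659.hopfSubquot_closed`, `H659.hopfProd_closed`; the ideals of a field are `⊥` and `⊤`).
-/

set_option autoImplicit false
set_option linter.style.haveILetI false
set_option linter.unusedSectionVars false

open scoped TensorProduct

namespace Fermat.Agent.S59.H601

open Fermat.Agent.S59 Fermat.Agent.S19

/-- Over a field, `v ↦ 1 ⊗ v` is injective. -/
theorem one_tmul_injective601 {F K V : Type} [Field F] [Field K] [Algebra F K]
    [AddCommGroup V] [Module F V] : Function.Injective (fun v : V => (1 : K) ⊗ₜ[F] v) := by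
  have h := Module.FaithfullyFlat.tensorProduct_mk_injective (A := F) (B := K) V
  exact h

/-- A linear endomorphism over a field is the identity as soon as its base change is. -/
theorem eq_one_of_baseChange_eq_one601 {F K V : Type} [Field F] [Field K] [Algebra F K]
    [AddCommGroup V] [Module F V] (f : Module.End F V)
    (h : f.baseChange K = 1) : f = 1 := by
  refine LinearMap.ext fun v => ?_
  apply one_tmul_injective601 (F := F) (K := K)
  have := congrArg (fun g : Module.End K (K ⊗[F] V) => g ((1 : K) ⊗ₜ[F] v)) h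
  simpa [LinearMap.baseChange_tmul] using this

/-- The unramified part. -/
theorem isUnramifiedAt_baseChangeAlong_iff601 {F K : Type} [Field F] [Field K] (ι : F →+* K)
    (ρbar : ResidualGaloisRep F) (q : ℕ) :
    (ρbar.baseChangeAlong ι).IsUnramifiedAt q ↔ ρbar.IsUnramifiedAt q := by
  letI : Algebra F K := ι.toAlgebra
  constructor
  · intro h A hA σ hσ
    have h1 : (ρbar.ρ σ).baseChange K = 1 := h A hA σ hσ
    exact eq_one_of_baseChange_eq_one601 (K := K) _ h1
  · intro h A hA σ hσ
    show (ρbar.ρ σ).baseChange K = 1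
    rw [h A hA σ hσ]
    exact LinearMap.baseChange_one F ρbar.V

end Fermat.Agent.S59.H601

namespace Fermat.Agent.S59.H601

open Fermat.Agent.S59 Fermat.Agent.S19

/-- The flat part. -/
theorem isFlatAt_ofResidual_baseChangeAlong_iff601 (p : ℕ) [Fact p.Prime]
    (ρbar : ResidualGaloisRep (ZMod p)) (k : Type) [Field k] [Finite k] (ι : ZMod p →+* k) :
    (GaloisRepAdic.ofResidualGaloisRep (ρbar.baseChangeAlong ι)).IsFlatAt p ↔
      (GaloisRepAdic.ofResidualGaloisRep ρbar).IsFlatAt p := by
  have hι : IsLocalHom ι := inferInstance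
  have hSub := H659.hopfSubquot_closed p
  have hProd := H659.hopfProd_closed p
  have hfin : ∀ J : Ideal k, Finite (k ⧸ J) := fun J =>
    Finite.of_surjective (Ideal.Quotient.mk J) Ideal.Quotient.mk_surjective
  have hfinp : ∀ I : Ideal (ZMod p), Finite (ZMod p ⧸ I) := fun I =>
    Finite.of_surjective (Ideal.Quotient.mk I) Ideal.Quotient.mk_surjective
  have hres : Finite (IsLocalRing.ResidueField k) :=
    Finite.of_surjective (IsLocalRing.residue k) IsLocalRing.residue_surjective
  have hresp : Finite (IsLocalRing.ResidueField (ZMod p)) :=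
    Finite.of_surjective (IsLocalRing.residue (ZMod p)) IsLocalRing.residue_surjective
  have hdef : GaloisRepAdic.ofResidualGaloisRep (ρbar.baseChangeAlong ι) =
      (GaloisRepAdic.ofResidualGaloisRep ρbar).baseChangeAlong ι hι := rfl
  rw [hdef, H779.isFlatAt_iff_flatLevel, H779.isFlatAt_iff_flatLevel]
  constructor
  · rintro ⟨-, h⟩
    refine ⟨hresp, fun I _ => ?_⟩
    rcases Ideal.eq_bot_or_top I with rfl | rfl
    · have h1 := H779.FlatLevel.comap hSub ι hι (h ⊥ (hfin ⊥))
      have h2 : (⊥ : Ideal k).comap ι = ⊥ := by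
        rw [← RingHom.ker_eq_comap_bot]
        exact (RingHom.injective_iff_ker_eq_bot ι).1 ι.injective
      rwa [h2] at h1
    · have h1 := H779.FlatLevel.comap hSub ι hι (h ⊤ (hfin ⊤))
      rwa [Ideal.comap_top] at h1
  · rintro ⟨-, h⟩
    refine ⟨hres, fun J hJ => ?_⟩
    exact H779.FlatLevel.baseChange hSub hProd ι hι (h (J.comap ι) (hfinp _))

/-- **Cell BC** (`Arch.ResidualBCStatement`). -/
theorem residualBC : Arch.ResidualBCStatement := by
  intro p _ ρbar k _ _ ι
  exact ⟨fun q _ => isUnramifiedAt_baseChangeAlong_iff601 ι ρbar q,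
    isFlatAt_ofResidual_baseChangeAlong_iff601 p ρbar k ι⟩

end Fermat.Agent.S59.H601
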