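import Fermat.Agent.S59.H601.PeuCoord
import Fermat.Agent.S59.H649.StrictSpec
import Fermat.Agent.S59.H659.FlatClosed

/-!
# S59 / TW-STRICT, leaf (b) PEU-FLAT (helper601)

`peuFlat : H649.PeuFlatStatement` — a residual representation over a finite field of odd
characteristic `p` with cyclotomic determinant which at one place `P | p` has an ordinary line and
is peu ramifié (Kummer form `H649.IsPeuAt`) is flat at `p`.

Route: the unit Kummer eigenfunctions are inertia-equivariant local coordinates with a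
`P`-polynomial addition law (`localCoordDatum601`); the landed unramified descent
(`S19.Unr.H992.unrStatement`) and ORD (`S19.H15.ordStatement`) turn them into a Hopf model.
-/

set_option autoImplicit false
set_option linter.unusedSectionVars false
set_option linter.unusedVariables false
set_option linter.style.haveILetI false

namespace Fermat.Agent.S59.H601

open Fermat.Agent.S19
open scoped Pointwise

/-- Additive characters of an elementary abelian `p`-group separate points. -/
theorem sep_aux601 (p : ℕ) [Fact p.Prime] (V : Type) [AddCommGroup V] [Module (ZMod p) V] (x : V)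
    (hx : ∀ ξ : V →+ ZMod p, ξ x = 0) : x = 0 := by
  apply (Module.forall_dual_apply_eq_zero_iff (ZMod p) x).mp
  intro φ
  exact hx φ.toAddMonoidHom

/-- The Prelude inertia group contains the elementwise inertia of `S19`. -/
theorem mem_inertiaSubgroupIn_of_isInertiaAt601 {P : ValuationSubring Qb} {σ : GalQ}
    (hσ : IsInertiaAt P σ) : σ ∈ P.inertiaSubgroupIn ℚ :=
  Fermat.Agent.S14.H714.mem_inertiaSubgroupIn_of
    ((Fermat.Agent.S19.Unr.H992.isDecompAt_iff_smul_eq σ).mp
      (Fermat.Agent.S19.Unr.H992.isInertiaAt_isDecompAt hσ)) hσ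

theorem mem_decompositionSubgroup_of_isInertiaAt601 {P : ValuationSubring Qb} {σ : GalQ}
    (hσ : IsInertiaAt P σ) : σ ∈ P.decompositionSubgroup ℚ :=
  MulAction.mem_stabilizer_iff.mpr
    ((Fermat.Agent.S19.Unr.H992.isDecompAt_iff_smul_eq σ).mp
      (Fermat.Agent.S19.Unr.H992.isInertiaAt_isDecompAt hσ))

/-- There is a primitive `p`-th root of unity in `ℚ̄`. -/
theorem exists_primitiveRoot601 (p : ℕ) [Fact p.Prime] : ∃ ζ : Qb, IsPrimitiveRoot ζ p := by
  haveI : NeZero ((p : ℕ) : Qb) := ⟨by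
    have := (Fact.out : p.Prime).ne_zero
    exact_mod_cast this⟩
  exact HasEnoughRootsOfUnity.exists_primitiveRoot Qb p

section Det

variable {k : Type} [Field k]

/-- In an ordinary basis, the determinant is the eigenvalue on the line. -/
theorem det_eq_of_ordinary601 {V : Type} [AddCommGroup V] [Module k V]
    (b : Module.Basis (Fin 2) k V) (f : Module.End k V) (x y : k)
    (h0 : f (b 0) = x • b 0) (h1 : f (b 1) = b 1 + y • b 0) : LinearMap.det f = x := by
  rw [← LinearMap.det_toMatrix b, Matrix.det_fin_two]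
  simp only [LinearMap.toMatrix_apply, h0, h1, map_add, map_smul, Module.Basis.repr_self,
    Finsupp.smul_apply, Finsupp.add_apply, Finsupp.single_apply, smul_eq_mul]
  simp

end Det

/-- **PEU ⟹ FLAT.** -/
theorem peuFlat : Fermat.Agent.S59.H649.PeuFlatStatement := by
  intro p _ hp2 k _ _ ρbar hdet P hP L hL hpeu
  classical
  have hp : p.Prime := Fact.out
  -- the module and its action
  haveI hfinM : Finite ρbar.V := Module.finite_of_finite k
  let act : GalQ → ρbar.V → ρbar.V := fun σ m => ρbar.ρ σ m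
  have hact : IsContAddAction act :=
    { act_one := fun m => by
        show ρbar.ρ 1 m = m
        rw [map_one]
        rfl
      act_mul := fun σ τ m => by
        show ρbar.ρ (σ * τ) m = ρbar.ρ σ (ρbar.ρ τ m)
        rw [map_mul]
        rfl
      act_add := fun σ m m' => map_add (ρbar.ρ σ) m m'
      cont := fun m => by
        obtain ⟨F, hF, h1⟩ := ρbar.factorsThroughFiniteLevel
        refine ⟨F, hF, fun σ hσ => ?_⟩
        show ρbar.ρ σ m = m
        rw [h1 σ hσ]
        rfl }
  -- `p = 0` in `k`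
  have hpk : (p : k) = 0 := by
    have h1 : (p : k) ∈ IsLocalRing.maximalIdeal k := hdet.1
    by_contra h0
    exact (IsLocalRing.mem_maximalIdeal _).mp h1 (isUnit_iff_ne_zero.mpr h0)
  have hpM : ∀ x : ρbar.V, p • x = 0 := by
    intro x
    rw [← Nat.cast_smul_eq_nsmul k p x, hpk, zero_smul]
  -- the root of unity
  obtain ⟨ζ, hζ⟩ := exists_primitiveRoot601 p
  have hPp : (p : Qb) ∈ P.nonunits := hP
  -- the line
  obtain ⟨b, hb⟩ : ∃ b : Module.Basis (Fin 2) k ρbar.V, L = Submodule.span k {b 0} := hL.basis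
  have hstab : ∀ σ ∈ P.decompositionSubgroup ℚ, ∀ v ∈ L, ρbar.ρ σ v ∈ L := hL.stable
  have hin : ∀ σ ∈ P.inertiaSubgroupIn ℚ, ∀ v : ρbar.V, ρbar.ρ σ v - v ∈ L := hL.inertia
  have hdet2 : ∀ (n : ℕ) (σ : AlgebraicClosure ℚ ≃ₐ[ℚ] AlgebraicClosure ℚ) (a : ℕ),
      (∀ μ : AlgebraicClosure ℚ, μ ^ p ^ n = 1 → σ μ = μ ^ a) →
        LinearMap.det (ρbar.ρ σ) - (a : k) ∈ Ideal.span {((p ^ n : ℕ) : k)} := hdet.2
  have hI : ∀ σ, IsInertiaAt P σ → ∀ m, act σ m - m ∈ L.toAddSubgroup := fun σ hσ m =>
    hin σ (mem_inertiaSubgroupIn_of_isInertiaAt601 hσ) m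
  have hLact : ∀ σ, IsInertiaAt P σ → ∀ l ∈ L.toAddSubgroup,
      act σ l = (om601 hζ σ).val • l := by
    intro σ hσ l hl
    have hσD := mem_decompositionSubgroup_of_isInertiaAt601 hσ
    have hσI := mem_inertiaSubgroupIn_of_isInertiaAt601 hσ
    have hb0 : b 0 ∈ L := by
      rw [hb]
      exact Submodule.mem_span_singleton_self _
    -- the eigenvalue on the line
    have h0 := hstab σ hσD (b 0) hb0
    rw [hb, Submodule.mem_span_singleton] at h0
    obtain ⟨x, hx⟩ := h0
    have h1 := hin σ hσI (b 1)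
    rw [hb, Submodule.mem_span_singleton] at h1
    obtain ⟨y, hy⟩ := h1
    have hf0 : (ρbar.ρ σ) (b 0) = x • b 0 := hx.symm
    have hf1 : (ρbar.ρ σ) (b 1) = b 1 + y • b 0 := by
      have : ρbar.ρ σ (b 1) - b 1 = y • b 0 := hy.symm
      exact sub_eq_iff_eq_add'.mp this
    have hdetx : LinearMap.det (ρbar.ρ σ) = x := det_eq_of_ordinary601 b _ x y hf0 hf1
    -- the determinant is cyclotomic
    have hcyc : ∀ μ : AlgebraicClosure ℚ, μ ^ p ^ 1 = 1 → σ μ = μ ^ (om601 hζ σ).val := by
      intro μ hμ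
      rw [pow_one] at hμ
      obtain ⟨i, -, rfl⟩ := hζ.eq_pow_of_pow_eq_one hμ
      rw [map_pow, map_zeta601 hζ σ, ← pow_mul, ← pow_mul, mul_comm]
    have h2 := hdet2 1 σ (om601 hζ σ).val hcyc
    have h3 : ((p ^ 1 : ℕ) : k) = 0 := by
      rw [pow_one]
      exact hpk
    rw [h3, Ideal.span_singleton_eq_bot.mpr rfl, Ideal.mem_bot, sub_eq_zero] at h2
    have hx' : x = ((om601 hζ σ).val : k) := by
      rw [← hdetx]
      exact h2
    -- conclusion
    have hl' : l ∈ L := hl
    rw [hb, Submodule.mem_span_singleton] at hl'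
    obtain ⟨t, rfl⟩ := hl'
    show ρbar.ρ σ (t • b 0) = (om601 hζ σ).val • (t • b 0)
    rw [map_smul, hf0, hx', ← Nat.cast_smul_eq_nsmul k (om601 hζ σ).val (t • b 0), smul_comm]
  have hpeu' : ∀ (ξ : ρbar.V →+ ZMod p) (c : ρbar.V), ∃ B : Qb, P.valuation B = 1 ∧
      ∀ σ, IsInertiaAt P σ → σ ζ = ζ → σ B = ez601 ζ (ξ (act σ c - c)) * B := by
    intro ξ c
    obtain ⟨B, hB, hBeq⟩ := hpeu ζ hζ ξ c
    exact ⟨B, hB, fun σ hσ hσζ => hBeq σ (mem_inertiaSubgroupIn_of_isInertiaAt601 hσ) hσζ⟩
  have hsep : ∀ x : ρbar.V, (∀ ξ : ρbar.V →+ ZMod p, ξ x = 0) → x = 0 := by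
    intro x hx
    letI : Module (ZMod p) ρbar.V := AddCommGroup.zmodModule hpM
    exact sep_aux601 p ρbar.V x hx
  -- local coordinates, descent, ORD
  obtain ⟨D⟩ := localCoordDatum601 hact P hPp hζ L.toAddSubgroup hI hLact hpeu' hsep
  obtain ⟨C⟩ := Fermat.Agent.S19.Unr.H992.unrStatement p ρbar.V act hact D
  have hO := orderDatum_of_coordDatum hact.act_add C
  have hH : HopfModel p ρbar.V act := Fermat.Agent.S19.H15.ordStatement p ρbar.V act hO
  -- the levels
  have hSub := H659.hopfSubquot_closed p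
  have hres : Finite (IsLocalRing.ResidueField k) :=
    Finite.of_surjective (IsLocalRing.residue k) IsLocalRing.residue_surjective
  rw [H779.isFlatAt_iff_flatLevel]
  have hbot : H779.FlatLevel p (GaloisRepAdic.ofResidualGaloisRep ρbar) ⊥ := by
    have hbotsub : ((⊥ : Ideal k) • (⊤ : Submodule k ρbar.V)) = ⊥ := Submodule.bot_smul _
    let e : ρbar.V ≃+ H779.Lev (GaloisRepAdic.ofResidualGaloisRep ρbar) ⊥ :=
      (Submodule.quotEquivOfEqBot _ hbotsub).symm.toAddEquiv
    refine H779.HopfModel.transport (p := p) (actM := act) e ?_ hH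
    intro σ x
    rfl
  refine ⟨hres, fun I _ => ?_⟩
  rcases Ideal.eq_bot_or_top I with rfl | rfl
  · exact hbot
  · exact H779.FlatLevel.mono hSub bot_le hbot

end Fermat.Agent.S59.H601
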