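import Fermat.Agent.S59.H779.FlatLevels
import Fermat.Agent.S59.H649.StrictSpec

/-!
# S59 / cell NMP, leaf SEL, step (F): PEU at a finite level ⟹ Hopf model (helper601) — interface

`ρ` a representation over a local ring `A`, `I` an ideal with `A ⧸ I` finite, `P` a valuation
subring of `ℚ̄` over `p`, `ζ` a primitive `p ^ n`-th root of unity with `p ^ n ∈ I`.

* `IsPeuAtLevel p ρ P I n ζ` : **peu ramifié at the level `I`** (Kummer form): for every point `v`
  of `V ⧸ I V` and every additive character `ξ : V ⧸ I V → ℤ/pⁿ`, the Kummer COCYCLE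
  `σ ↦ ζ ^ ξ (σ v - v)` of the WHOLE inertia group of `P` is the coboundary of a `P`-unit.
  (For `n ≥ 2` the condition on `{σ ∈ I_P : σ ζ = ζ}` alone would be too weak: it only says that
  the valuation of the Kummer class vanishes mod `p`.)
* `PeuLevelStatement` : ordinary line at `P` + cyclotomic determinant + peu ramifié at the level
  `I` ⟹ `V ⧸ I V` has a Hopf model over `ℤ_(p)` (`H779.FlatLevel`).
* `PeuFlatAllStatement` : the same at all finite levels ⟹ `ρ.IsFlatAt p`.

Definitions only.  Proofs: `PeuLevel.lean`.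
-/

set_option autoImplicit false

namespace Fermat.Agent.S59.H601

/-- **Peu ramifié at the finite level `I`** (Kummer form on the whole inertia group). -/
def IsPeuAtLevel (p : ℕ) {A : Type} [CommRing A] [IsLocalRing A] (ρ : GaloisRepAdic A)
    (P : ValuationSubring (AlgebraicClosure ℚ)) (I : Ideal A) (n : ℕ)
    (ζ : AlgebraicClosure ℚ) : Prop :=
  ∀ (ξ : Fermat.Agent.S59.H779.Lev ρ I →+ ZMod (p ^ n)) (v : Fermat.Agent.S59.H779.Lev ρ I),
    ∃ B : AlgebraicClosure ℚ, P.valuation B = 1 ∧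
      ∀ σ ∈ P.inertiaSubgroupIn ℚ, σ B = ζ ^ (ξ (ρ.levelAction I σ v - v)).val * B

/-- **(F) at one level.**  Ordinary line at `P`, cyclotomic determinant, peu ramifié at the level
`I` (for ONE `n` with `p ^ n ∈ I` and ONE primitive `p ^ n`-th root of unity) ⟹ Hopf model of
`V ⧸ I V`. -/
def PeuLevelStatement : Prop :=
  ∀ (p : ℕ) [Fact p.Prime] (A : Type) [CommRing A] [IsLocalRing A] (ρ : GaloisRepAdic A),
    ρ.DetIsCyclotomic p →
    ∀ P : ValuationSubring (AlgebraicClosure ℚ), P.LiesOverPrime p →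
    ∀ L : Submodule A ρ.V, Fermat.Agent.S59.H649.IsOrdLineAt ρ P L →
    ∀ I : Ideal A, Finite (A ⧸ I) →
    ∀ (n : ℕ) (ζ : AlgebraicClosure ℚ), IsPrimitiveRoot ζ (p ^ n) → ((p ^ n : ℕ) : A) ∈ I →
      IsPeuAtLevel p ρ P I n ζ → Fermat.Agent.S59.H779.FlatLevel p ρ I

/-- **(F) at all levels.**  Ordinary line at `P`, cyclotomic determinant, peu ramifié at every
finite level ⟹ flat at `p`. -/
def PeuFlatAllStatement : Prop :=
  ∀ (p : ℕ) [Fact p.Prime] (A : Type) [CommRing A] [IsLocalRing A]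
    [Finite (IsLocalRing.ResidueField A)] (ρ : GaloisRepAdic A),
    ρ.DetIsCyclotomic p →
    ∀ P : ValuationSubring (AlgebraicClosure ℚ), P.LiesOverPrime p →
    ∀ L : Submodule A ρ.V, Fermat.Agent.S59.H649.IsOrdLineAt ρ P L →
    (∀ I : Ideal A, Finite (A ⧸ I) →
      ∃ (n : ℕ) (ζ : AlgebraicClosure ℚ), IsPrimitiveRoot ζ (p ^ n) ∧ ((p ^ n : ℕ) : A) ∈ I ∧
        IsPeuAtLevel p ρ P I n ζ) →
    ρ.IsFlatAt p

/-- (F) at all levels from (F) at one level. -/
theorem peuFlatAll_of_level (h : PeuLevelStatement) : PeuFlatAllStatement := by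
  intro p _ A _ _ hres ρ hdet P hP L hL hpeu
  rw [Fermat.Agent.S59.H779.isFlatAt_iff_flatLevel]
  refine ⟨hres, fun I hI => ?_⟩
  obtain ⟨n, ζ, hζ, hn, hp⟩ := hpeu I hI
  exact h p A ρ hdet P hP L hL I hI n ζ hζ hn hp

end Fermat.Agent.S59.H601
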