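import Fermat.Agent.S59.H601.PeuCoordN
import Fermat.Agent.S59.H601.PeuFlat
import Fermat.Agent.S59.H601.PeuLevelSpec

/-!
# S59 / cell NMP, leaf SEL, step (F): PEU at a finite level ⟹ Hopf model (helper601)

`peuLevel : PeuLevelStatement` and `peuFlatAll : PeuFlatAllStatement`.

Route (as for `peuFlat`): on `M = V ⧸ I V` the unit Kummer eigenfunctions
`m ↦ [m - c ∈ L̄] ζ ^ ξ (m - c) B_{c,ξ}` (`ζ` a primitive `p ^ n`-th root of unity, `p ^ n ∈ I`,
`ξ : M → ℤ/pⁿ`, `L̄` the image of the ordinary line) are inertia-equivariant `P`-integral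
coordinates with a `P`-polynomial addition law (`localCoordDatumN601`); the landed unramified
descent (`S19.Unr.H992.unrStatement`) and ORD (`S19.H15.ordStatement`) give the Hopf model.
-/

set_option autoImplicit false
set_option linter.unusedSectionVars false
set_option linter.unusedVariables false
set_option linter.style.haveILetI false

namespace Fermat.Agent.S59.H601

open Fermat.Agent.S19
open scoped Pointwise

section Algebra

/-- In a local ring, an ideal of finite index contains a power of the maximal ideal. -/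
theorem exists_pow_maximalIdeal_le601 {A : Type} [CommRing A] [IsLocalRing A] (I : Ideal A)
    [Finite (A ⧸ I)] : ∃ n : ℕ, IsLocalRing.maximalIdeal A ^ n ≤ I := by
  by_cases hI : I = ⊤
  · exact ⟨0, by rw [hI]; exact le_top⟩
  · have hjac : I.jacobson = IsLocalRing.maximalIdeal A :=
      IsLocalRing.jacobson_eq_maximalIdeal I hI
    have hsurj : Function.Surjective (Ideal.Quotient.mk I) := Ideal.Quotient.mk_surjective
    have hmap : Ideal.map (Ideal.Quotient.mk I) I.jacobson =
        (Ideal.map (Ideal.Quotient.mk I) I).jacobson :=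
      Ideal.map_jacobson_of_surjective hsurj (by rw [Ideal.mk_ker])
    rw [Ideal.map_quotient_self, hjac] at hmap
    obtain ⟨n, hn⟩ := IsArtinianRing.isNilpotent_jacobson_bot (R := A ⧸ I)
    refine ⟨n, ?_⟩
    rw [← hmap, ← Ideal.map_pow, Ideal.zero_eq_bot, Ideal.map_eq_bot_iff_le_ker,
      Ideal.mk_ker] at hn
    exact hn

/-- In an ordinary basis, the determinant is the eigenvalue on the line. -/
theorem det_eq_of_ordinaryR601 {A : Type} [CommRing A] {V : Type} [AddCommGroup V] [Module A V]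
    (b : Module.Basis (Fin 2) A V) (f : Module.End A V) (x y : A)
    (h0 : f (b 0) = x • b 0) (h1 : f (b 1) = b 1 + y • b 0) : LinearMap.det f = x := by
  rw [← LinearMap.det_toMatrix b, Matrix.det_fin_two]
  simp only [LinearMap.toMatrix_apply, h0, h1, map_add, map_smul, Module.Basis.repr_self,
    Finsupp.smul_apply, Finsupp.add_apply, Finsupp.single_apply, smul_eq_mul]
  simp

end Algebra

section Sep

variable {N : ℕ} [NeZero N] {M : Type} [AddCommGroup M] [Finite M]

theorem ezN601_injective {ζ : Qb} (hζ : IsPrimitiveRoot ζ N) {a b : ZMod N}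
    (h : ezN601 ζ a = ezN601 ζ b) : a = b := by
  have h1 : ezN601 ζ (a - b) * ezN601 ζ b = 1 * ezN601 ζ b := by
    rw [← ezN601_add hζ.pow_eq_one, sub_add_cancel, one_mul, h]
  have h2 := mul_right_cancel₀ (ezN601_ne_zero hζ.pow_eq_one b) h1
  exact sub_eq_zero.mp ((ezN601_eq_one_iff hζ _).mp h2)

/-- The characters `M → ℤ/N` separate the points of a finite abelian group killed by `N`. -/
theorem sepN601 (hN : ∀ x : M, N • x = 0) {ζ : Qb} (hζ : IsPrimitiveRoot ζ N) (x : M)
    (hx : ∀ ξ : M →+ ZMod N, ξ x = 0) : x = 0 := by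
  by_contra hx0
  have hexp : Monoid.exponent (Multiplicative M) ≠ 0 := Monoid.exponent_ne_zero_of_finite
  haveI : NeZero ((Monoid.exponent (Multiplicative M) : ℕ) : Qb) := ⟨by exact_mod_cast hexp⟩
  have hx1 : Multiplicative.ofAdd x ≠ 1 := fun h => hx0 (by simpa using h)
  obtain ⟨φ, hφ⟩ := CommGroup.exists_apply_ne_one_of_hasEnoughRootsOfUnity
    (Multiplicative M) Qb hx1
  let g : M → Qb := fun m => ((φ (Multiplicative.ofAdd m) : Qbˣ) : Qb)
  have hg_add : ∀ a b : M, g (a + b) = g a * g b := by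
    intro a b
    show ((φ (Multiplicative.ofAdd (a + b)) : Qbˣ) : Qb) = _
    rw [ofAdd_add, map_mul, Units.val_mul]
  have hgN : ∀ m : M, g m ^ N = 1 := by
    intro m
    show ((φ (Multiplicative.ofAdd m) : Qbˣ) : Qb) ^ N = 1
    rw [← Units.val_pow_eq_pow_val, ← map_pow, ← ofAdd_nsmul, hN m, ofAdd_zero, map_one,
      Units.val_one]
  have hex : ∀ m : M, ∃ i : ZMod N, ezN601 ζ i = g m := by
    intro m
    obtain ⟨i, hi, hi'⟩ := hζ.eq_pow_of_pow_eq_one (hgN m)
    refine ⟨(i : ZMod N), ?_⟩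
    unfold ezN601
    rw [ZMod.val_natCast_of_lt hi, hi']
  choose f hf using hex
  let ξ : M →+ ZMod N := AddMonoidHom.mk' f (by
    intro a b
    apply ezN601_injective hζ
    rw [ezN601_add hζ.pow_eq_one, hf, hf, hf, hg_add])
  have h1 : f x = 0 := hx ξ
  have h2 : g x = 1 := by rw [← hf x, h1, ezN601_zero]
  apply hφ
  exact Units.ext h2

end Sep

section Level

variable {A : Type} [CommRing A] [IsLocalRing A]

theorem levelAction_mk601 (ρ : GaloisRepAdic A) (I : Ideal A) (σ : GalQ) (v : ρ.V) :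
    ρ.levelAction I σ (Submodule.Quotient.mk v) = Submodule.Quotient.mk (ρ.ρ σ v) := rfl

/-- The levels of a representation are finite. -/
theorem finite_lev601 (ρ : GaloisRepAdic A) (I : Ideal A) [Finite (A ⧸ I)] :
    Finite (Fermat.Agent.S59.H779.Lev ρ I) := by
  haveI : Module.Finite (A ⧸ I) (ρ.V ⧸ (I • (⊤ : Submodule A ρ.V))) :=
    Module.Finite.of_restrictScalars_finite A (A ⧸ I) _
  exact Module.finite_of_finite (A ⧸ I)

/-- The Galois action on a finite level is additive with open stabilisers. -/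
theorem isContAddAction_lev601 (ρ : GaloisRepAdic A) (I : Ideal A) [Finite (A ⧸ I)] :
    IsContAddAction (fun (σ : GalQ) (x : Fermat.Agent.S59.H779.Lev ρ I) =>
      ρ.levelAction I σ x) := by
  obtain ⟨n, hn⟩ := exists_pow_maximalIdeal_le601 I
  obtain ⟨F, hF, hFfix⟩ := ρ.isAdicContinuous n
  refine
    { act_one := fun m => ?_
      act_mul := fun σ τ m => ?_
      act_add := fun σ m m' => map_add (ρ.levelAction I σ) m m'
      cont := fun m => ⟨F, hF, fun σ hσ => ?_⟩ }
  · obtain ⟨v, rfl⟩ := Submodule.Quotient.mk_surjective _ m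
    show ρ.levelAction I 1 (Submodule.Quotient.mk v) = _
    rw [levelAction_mk601, map_one]
    rfl
  · obtain ⟨v, rfl⟩ := Submodule.Quotient.mk_surjective _ m
    show ρ.levelAction I (σ * τ) (Submodule.Quotient.mk v) =
      ρ.levelAction I σ (ρ.levelAction I τ (Submodule.Quotient.mk v))
    rw [levelAction_mk601, levelAction_mk601, levelAction_mk601, map_mul]
    rfl
  · obtain ⟨v, rfl⟩ := Submodule.Quotient.mk_surjective _ m
    show ρ.levelAction I σ (Submodule.Quotient.mk v) = _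
    rw [levelAction_mk601, Submodule.Quotient.eq]
    exact Submodule.smul_mono_left hn (hFfix σ hσ v)

end Level

/-- **(F) at one level: PEU ⟹ Hopf model.** -/
theorem peuLevel : PeuLevelStatement := by
  intro p _ A _ _ ρ hdet P hP L hL I hfin n ζ hζ hpn hpeu
  classical
  have hp : p.Prime := Fact.out
  haveI : NeZero (p ^ n) := ⟨pow_ne_zero n hp.ne_zero⟩
  haveI hfinM : Finite (Fermat.Agent.S59.H779.Lev ρ I) := finite_lev601 ρ I
  let act : GalQ → Fermat.Agent.S59.H779.Lev ρ I → Fermat.Agent.S59.H779.Lev ρ I :=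
    fun σ x => ρ.levelAction I σ x
  have hact : IsContAddAction act := isContAddAction_lev601 ρ I
  have hPp : (p : Qb) ∈ P.nonunits := hP
  -- the module is killed by `p ^ n`
  have hkill : ∀ x : Fermat.Agent.S59.H779.Lev ρ I, (p ^ n) • x = 0 := by
    intro x
    obtain ⟨v, rfl⟩ := Submodule.Quotient.mk_surjective _ x
    rw [← Submodule.Quotient.mk_smul, Submodule.Quotient.mk_eq_zero,
      ← Nat.cast_smul_eq_nsmul A (p ^ n) v]
    exact Submodule.smul_mem_smul hpn Submodule.mem_top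
  -- the line
  obtain ⟨b, hb⟩ : ∃ b : Module.Basis (Fin 2) A ρ.V, L = Submodule.span A {b 0} := hL.basis
  have hstab : ∀ σ ∈ P.decompositionSubgroup ℚ, ∀ v ∈ L, ρ.ρ σ v ∈ L := hL.stable
  have hin : ∀ σ ∈ P.inertiaSubgroupIn ℚ, ∀ v : ρ.V, ρ.ρ σ v - v ∈ L := hL.inertia
  let Lbar : AddSubgroup (Fermat.Agent.S59.H779.Lev ρ I) :=
    (L.map (Submodule.mkQ (I • (⊤ : Submodule A ρ.V)))).toAddSubgroup
  have hLbar : ∀ x, x ∈ Lbar ↔ ∃ w ∈ L, Submodule.Quotient.mk w = x := by
    intro x
    show x ∈ L.map (Submodule.mkQ (I • (⊤ : Submodule A ρ.V))) ↔ _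
    rw [Submodule.mem_map]
    rfl
  have hI : ∀ σ, IsInertiaAt P σ → ∀ m, act σ m - m ∈ Lbar := by
    intro σ hσ m
    obtain ⟨v, rfl⟩ := Submodule.Quotient.mk_surjective _ m
    rw [hLbar]
    exact ⟨ρ.ρ σ v - v, hin σ (mem_inertiaSubgroupIn_of_isInertiaAt601 hσ) v, rfl⟩
  have hLact : ∀ σ, IsInertiaAt P σ → ∀ l ∈ Lbar, act σ l = (omN601 hζ σ).val • l := by
    intro σ hσ l hl
    have hσD := mem_decompositionSubgroup_of_isInertiaAt601 hσ
    have hσI := mem_inertiaSubgroupIn_of_isInertiaAt601 hσ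
    have hb0 : b 0 ∈ L := by
      rw [hb]
      exact Submodule.mem_span_singleton_self _
    -- the eigenvalue on the line
    have h0 := hstab σ hσD (b 0) hb0
    rw [hb, Submodule.mem_span_singleton] at h0
    obtain ⟨x, hx⟩ := h0
    have h1 := hin σ hσI (b 1)
    rw [hb, Submodule.mem_span_singleton] at h1
    obtain ⟨y, hy⟩ := h1
    have hf0 : (ρ.ρ σ) (b 0) = x • b 0 := hx.symm
    have hf1 : (ρ.ρ σ) (b 1) = b 1 + y • b 0 := by
      have : ρ.ρ σ (b 1) - b 1 = y • b 0 := hy.symm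
      exact sub_eq_iff_eq_add'.mp this
    have hdetx : LinearMap.det (ρ.ρ σ) = x := det_eq_of_ordinaryR601 b _ x y hf0 hf1
    -- the determinant is cyclotomic
    have hcyc : ∀ μ : AlgebraicClosure ℚ, μ ^ p ^ n = 1 → σ μ = μ ^ (omN601 hζ σ).val :=
      fun μ hμ => map_rootN601 hζ σ hμ
    have h2 := hdet.2 n σ (omN601 hζ σ).val hcyc
    rw [hdetx] at h2
    have h3 : x - (((omN601 hζ σ).val : ℕ) : A) ∈ I :=
      (Ideal.span_singleton_le_iff_mem (I := I)).mpr hpn h2
    -- conclusion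
    obtain ⟨w, hw, rfl⟩ := (hLbar l).mp hl
    rw [hb, Submodule.mem_span_singleton] at hw
    obtain ⟨t, rfl⟩ := hw
    show ρ.levelAction I σ (Submodule.Quotient.mk (t • b 0)) = _
    rw [levelAction_mk601, ← Submodule.Quotient.mk_smul, Submodule.Quotient.eq, map_smul, hf0,
      ← Nat.cast_smul_eq_nsmul A (omN601 hζ σ).val (t • b 0)]
    have h4 : t • x • b 0 - (((omN601 hζ σ).val : ℕ) : A) • t • b 0 =
        (x - (((omN601 hζ σ).val : ℕ) : A)) • (t • b 0) := by
      rw [sub_smul, smul_comm t x]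
    rw [h4]
    exact Submodule.smul_mem_smul h3 Submodule.mem_top
  have hunit : ∀ (ξ : Fermat.Agent.S59.H779.Lev ρ I →+ ZMod (p ^ n))
      (c : Fermat.Agent.S59.H779.Lev ρ I), ∃ B : Qb, P.valuation B = 1 ∧
      ∀ σ, IsInertiaAt P σ → σ B = ezN601 ζ (ξ (act σ c - c)) * B := by
    intro ξ c
    obtain ⟨B, hB, hBeq⟩ := hpeu ξ c
    exact ⟨B, hB, fun σ hσ => hBeq σ (mem_inertiaSubgroupIn_of_isInertiaAt601 hσ)⟩
  have hsep : ∀ x : Fermat.Agent.S59.H779.Lev ρ I,
      (∀ ξ : Fermat.Agent.S59.H779.Lev ρ I →+ ZMod (p ^ n), ξ x = 0) → x = 0 :=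
    fun x hx => sepN601 hkill hζ x hx
  -- local coordinates, descent, ORD
  obtain ⟨D⟩ := localCoordDatumN601 p hact P hPp hζ Lbar hI hLact hunit hsep
  obtain ⟨C⟩ := Fermat.Agent.S19.Unr.H992.unrStatement p (Fermat.Agent.S59.H779.Lev ρ I) act hact D
  have hO := orderDatum_of_coordDatum hact.act_add C
  exact Fermat.Agent.S19.H15.ordStatement p (Fermat.Agent.S59.H779.Lev ρ I) act hO

/-- **(F) at all levels: PEU at every finite level ⟹ flat at `p`.** -/
theorem peuFlatAll : PeuFlatAllStatement := peuFlatAll_of_level peuLevel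

end Fermat.Agent.S59.H601
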