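import Fermat.Agent.S59.H601.PeuRootsN

/-!
# S59 / NMP-SEL (F) (helper601), part 2: the local coordinate datum at modulus `N`

Abstract setting: `M` a finite `G_ℚ`-module, `P` a valuation subring of `ℚ̄` over `ℓ`, `ζ` a
primitive `N`-th root of unity, `L ⊆ M` a subgroup such that the inertia group `I` of `P` acts
trivially on `M / L` and by the mod `N` cyclotomic character on `L`, every Kummer cocycle
`σ ↦ ζ ^ ξ (σ c - c)` of `I` is the coboundary of a `P`-unit, and the characters `M → ℤ/N`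
separate the points of `M`.  Then

`localCoordDatumN601 : Nonempty (LocalCoordDatum ℓ M act)` with coordinates
`Ψ m (c, ξ) = [m - c ∈ L] · ζ ^ ξ (m - c) · B_{c,ξ}`.
-/

set_option autoImplicit false
set_option linter.unusedSectionVars false
set_option linter.unusedVariables false
set_option linter.style.haveILetI false

namespace Fermat.Agent.S59.H601

open Fermat.Agent.S19

section CoordN

variable {N : ℕ} [NeZero N] {M : Type} [AddCommGroup M]

open Classical in
/-- The coordinates. -/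
noncomputable def psiN601 (ζ : Qb) (L : AddSubgroup M) (Bf : M → (M →+ ZMod N) → Qb) (m : M)
    (i : M × (M →+ ZMod N)) : Qb :=
  if m - i.1 ∈ L then ezN601 ζ (i.2 (m - i.1)) * Bf i.1 i.2 else 0

theorem psiN601_of_mem {ζ : Qb} {L : AddSubgroup M} (Bf : M → (M →+ ZMod N) → Qb) {m c : M}
    (ξ : M →+ ZMod N) (h : m - c ∈ L) :
    psiN601 ζ L Bf m (c, ξ) = ezN601 ζ (ξ (m - c)) * Bf c ξ := by
  unfold psiN601
  rw [if_pos h]

theorem psiN601_of_not_mem {ζ : Qb} {L : AddSubgroup M} (Bf : M → (M →+ ZMod N) → Qb) {m c : M}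
    (ξ : M →+ ZMod N) (h : m - c ∉ L) :
    psiN601 ζ L Bf m (c, ξ) = 0 := by
  unfold psiN601
  rw [if_neg h]

theorem finite_addMonoidHomN601 [Finite M] : Finite (M →+ ZMod N) :=
  Finite.of_injective (fun f : M →+ ZMod N => (f : M → ZMod N)) DFunLike.coe_injective

variable [Finite M] {act : GalQ → M → M} (ℓ : ℕ)
  (hact : IsContAddAction act) (P : ValuationSubring Qb) (hP : (ℓ : Qb) ∈ P.nonunits)
  {ζ : Qb} (hζ : IsPrimitiveRoot ζ N) (L : AddSubgroup M)
  (hI : ∀ σ, IsInertiaAt P σ → ∀ m, act σ m - m ∈ L)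
  (hL : ∀ σ, IsInertiaAt P σ → ∀ l ∈ L, act σ l = (omN601 hζ σ).val • l)
  (hunit : ∀ (ξ : M →+ ZMod N) (c : M), ∃ B : Qb, P.valuation B = 1 ∧
      ∀ σ, IsInertiaAt P σ → σ B = ezN601 ζ (ξ (act σ c - c)) * B)
  (hsep : ∀ x : M, (∀ ξ : M →+ ZMod N, ξ x = 0) → x = 0)

include hact hP hζ hI hL hunit hsep in
/-- **The local coordinate datum of a peu ramifié extension, modulus `N`.** -/
theorem localCoordDatumN601 : Nonempty (LocalCoordDatum ℓ M act) := by
  classical
  have hζp : ζ ^ N = 1 := hζ.pow_eq_one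
  choose Bf hBfv hBfeq using hunit
  have hBf0 : ∀ ξ c, Bf ξ c ≠ 0 := fun ξ c => ne_zero_of_val_eq_one601 P (hBfv ξ c)
  have hBfP : ∀ ξ c, Bf ξ c ∈ P := fun ξ c => mem_of_val_eq_one601 P (hBfv ξ c)
  have hBfinv : ∀ ξ c, (Bf ξ c)⁻¹ ∈ P := fun ξ c => inv_mem_of_val_eq_one601 P (hBfv ξ c)
  have hezP : ∀ x : ZMod N, ezN601 ζ x ∈ P := fun x => root_memN601 P (ezN601_pow hζp x)
  -- the coordinates
  let Bg : M → (M →+ ZMod N) → Qb := fun c ξ => Bf ξ c
  let Ψ : M → M × (M →+ ZMod N) → Qb := psiN601 ζ L Bg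
  have hΨP : ∀ m i, Ψ m i ∈ P := by
    rintro m ⟨c, ξ⟩
    by_cases h : m - c ∈ L
    · show psiN601 ζ L Bg m (c, ξ) ∈ P
      rw [psiN601_of_mem Bg ξ h]
      exact P.mul_mem _ _ (hezP _) (hBfP ξ c)
    · show psiN601 ζ L Bg m (c, ξ) ∈ P
      rw [psiN601_of_not_mem Bg ξ h]
      exact P.zero_mem
  haveI hfinHom : Finite (M →+ ZMod N) := finite_addMonoidHomN601
  refine ⟨{ V := P
            ell_mem := hP
            ι := M × (M →+ ZMod N)
            fin := inferInstance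
            Ψ := Ψ
            inj := ?_
            integral := hΨP
            equivariant := ?_
            add_mem := ?_ }⟩
  · -- injectivity
    intro m m' hmm
    have hkey : ∀ ξ : M →+ ZMod N, m' - m ∈ L ∧ ξ (m' - m) = 0 := by
      intro ξ
      have h1 : Ψ m (m, ξ) = Bf ξ m := by
        show psiN601 ζ L Bg m (m, ξ) = _
        rw [psiN601_of_mem Bg ξ (by rw [sub_self]; exact L.zero_mem), sub_self, map_zero,
          ezN601_zero, one_mul]
      have h2 : Ψ m' (m, ξ) = Bf ξ m := by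
        rw [← congrFun hmm (m, ξ)]
        exact h1
      by_cases h : m' - m ∈ L
      · refine ⟨h, ?_⟩
        have h3 : psiN601 ζ L Bg m' (m, ξ) = Bf ξ m := h2
        rw [psiN601_of_mem Bg ξ h] at h3
        have h4 : ezN601 ζ (ξ (m' - m)) = 1 := by
          have h5 : ezN601 ζ (ξ (m' - m)) * Bf ξ m = 1 * Bf ξ m := by rw [one_mul]; exact h3
          exact mul_right_cancel₀ (hBf0 ξ m) h5
        exact (ezN601_eq_one_iff hζ _).mp h4
      · exfalso
        have h3 : psiN601 ζ L Bg m' (m, ξ) = Bf ξ m := h2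
        rw [psiN601_of_not_mem Bg ξ h] at h3
        exact hBf0 ξ m h3.symm
    have h0 : m' - m = 0 := hsep _ fun ξ => (hkey ξ).2
    exact (sub_eq_zero.mp h0).symm
  · -- equivariance under inertia
    rintro σ hσ m ⟨c, ξ⟩
    show psiN601 ζ L Bg (act σ m) (c, ξ) = σ (psiN601 ζ L Bg m (c, ξ))
    by_cases h : m - c ∈ L
    · have h' : act σ m - c ∈ L := (act_sub_mem_iffN601 P L hI c m hσ).mpr h
      rw [psiN601_of_mem Bg ξ h, psiN601_of_mem Bg ξ h', map_mul, map_ezN601 hζ,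
        xi_actN601 hact P hζ L hI hL ξ c m h hσ, ezN601_add hζp]
      show _ * _ * Bf ξ c = _ * σ (Bf ξ c)
      rw [hBfeq ξ c σ hσ]
      ring
    · have h' : act σ m - c ∉ L := fun h' => h ((act_sub_mem_iffN601 P L hI c m hσ).mp h')
      rw [psiN601_of_not_mem Bg ξ h, psiN601_of_not_mem Bg ξ h', map_zero]
  · -- the addition law
    rintro ⟨c, ξ⟩
    letI : Fintype (M ⧸ L) := Fintype.ofFinite _
    let r : M ⧸ L → M := fun q => Quotient.out q
    have hr : ∀ m : M, m - r (QuotientAddGroup.mk m) ∈ L := by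
      intro m
      have h1 : (QuotientAddGroup.mk (r (QuotientAddGroup.mk m)) : M ⧸ L) =
          QuotientAddGroup.mk m := Quotient.out_eq _
      have h2 := QuotientAddGroup.eq.mp h1
      have h3 : m - r (QuotientAddGroup.mk m) = -r (QuotientAddGroup.mk m) + m := by abel
      rw [h3]
      exact h2
    have hr' : ∀ (m : M) (q : M ⧸ L), m - r q ∈ L → q = QuotientAddGroup.mk m := by
      intro m q h
      have h1 : (QuotientAddGroup.mk (r q) : M ⧸ L) = q := Quotient.out_eq _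
      rw [← h1]
      apply QuotientAddGroup.eq.mpr
      have h3 : -r q + m = m - r q := by abel
      rw [h3]
      exact h
    -- the structure constants
    let u : M ⧸ L → M ⧸ L → Qb := fun q₁ q₂ =>
      if r q₁ + r q₂ - c ∈ L then
        ezN601 ζ (ξ (r q₁ + r q₂ - c)) * Bf ξ c * (Bf ξ (r q₁))⁻¹ * (Bf ξ (r q₂))⁻¹
      else 0
    have huP : ∀ q₁ q₂, u q₁ q₂ ∈ P := by
      intro q₁ q₂
      show (if r q₁ + r q₂ - c ∈ L then _ else _) ∈ P
      split_ifs with h
      · exact P.mul_mem _ _ (P.mul_mem _ _ (P.mul_mem _ _ (hezP _) (hBfP ξ c)) (hBfinv ξ _))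
          (hBfinv ξ _)
      · exact P.zero_mem
    have hmain : ∀ (m m' c₁ c₂ : M), m - c₁ ∈ L → m' - c₂ ∈ L →
        psiN601 ζ L Bg (m + m') (c, ξ) =
          (if c₁ + c₂ - c ∈ L then
            ezN601 ζ (ξ (c₁ + c₂ - c)) * Bf ξ c * (Bf ξ c₁)⁻¹ * (Bf ξ c₂)⁻¹
          else 0) * psiN601 ζ L Bg m (c₁, ξ) * psiN601 ζ L Bg m' (c₂, ξ) := by
      intro m m' c₁ c₂ h1 h2
      have hsum : m + m' - c = (m - c₁) + (m' - c₂) + (c₁ + c₂ - c) := by abel
      have hiff : m + m' - c ∈ L ↔ c₁ + c₂ - c ∈ L := by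
        rw [hsum]
        exact L.add_mem_cancel_left (L.add_mem h1 h2)
      rw [psiN601_of_mem Bg ξ h1, psiN601_of_mem Bg ξ h2]
      by_cases h : m + m' - c ∈ L
      · have h' := hiff.mp h
        rw [psiN601_of_mem Bg ξ h, if_pos h', hsum, map_add, map_add, ezN601_add hζp,
          ezN601_add hζp]
        show _ * Bf ξ c = _ * (_ * Bf ξ c₁) * (_ * Bf ξ c₂)
        have := hBf0 ξ c₁
        have := hBf0 ξ c₂
        field_simp
      · have h' : c₁ + c₂ - c ∉ L := fun h' => h (hiff.mpr h')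
        rw [psiN601_of_not_mem Bg ξ h, if_neg h', zero_mul, zero_mul]
    have hmem : (∑ q₁ : M ⧸ L, ∑ q₂ : M ⧸ L,
        algebraMap P (M × M → Qb) ⟨u q₁ q₂, huP q₁ q₂⟩ *
          (fun x : M × M => Ψ x.1 (r q₁, ξ)) * (fun x : M × M => Ψ x.2 (r q₂, ξ))) ∈
        Algebra.adjoin P ({f | ∃ j, f = fun x : M × M => Ψ x.1 j} ∪
          {f | ∃ j, f = fun x : M × M => Ψ x.2 j}) := by
      refine Subalgebra.sum_mem _ fun q₁ _ => Subalgebra.sum_mem _ fun q₂ _ => ?_
      refine Subalgebra.mul_mem _ (Subalgebra.mul_mem _ (Subalgebra.algebraMap_mem _ _) ?_) ?_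
      · exact Algebra.subset_adjoin (Or.inl ⟨(r q₁, ξ), rfl⟩)
      · exact Algebra.subset_adjoin (Or.inr ⟨(r q₂, ξ), rfl⟩)
    have heq : (fun x : M × M => Ψ (x.1 + x.2) (c, ξ)) = ∑ q₁ : M ⧸ L, ∑ q₂ : M ⧸ L,
        algebraMap P (M × M → Qb) ⟨u q₁ q₂, huP q₁ q₂⟩ *
          (fun x : M × M => Ψ x.1 (r q₁, ξ)) * (fun x : M × M => Ψ x.2 (r q₂, ξ)) := by
      funext ⟨m, m'⟩
      rw [Finset.sum_apply]
      simp only [Finset.sum_apply, Pi.mul_apply]
      rw [Finset.sum_eq_single (QuotientAddGroup.mk m : M ⧸ L)]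
      · rw [Finset.sum_eq_single (QuotientAddGroup.mk m' : M ⧸ L)]
        · -- the main term
          exact hmain m m' _ _ (hr m) (hr m')
        · intro q₂ _ hq₂
          have h2 : m' - r q₂ ∉ L := fun h => hq₂ (hr' m' q₂ h)
          show _ * _ * psiN601 ζ L Bg m' (r q₂, ξ) = 0
          rw [psiN601_of_not_mem Bg ξ h2, mul_zero]
        · intro h
          exact absurd (Finset.mem_univ _) h
      · intro q₁ _ hq₁
        have h1 : m - r q₁ ∉ L := fun h => hq₁ (hr' m q₁ h)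
        apply Finset.sum_eq_zero
        intro q₂ _
        show _ * psiN601 ζ L Bg m (r q₁, ξ) * _ = 0
        rw [psiN601_of_not_mem Bg ξ h1, mul_zero, zero_mul]
      · intro h
        exact absurd (Finset.mem_univ _) h
    rw [heq]
    exact hmem

end CoordN

end Fermat.Agent.S59.H601
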