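import Fermat.Agent.S59.H601.PeuRoots

/-!
# S59 / TW-STRICT / PEU-FLAT (helper601), part 2: local coordinates of a peu ramifié extension

Abstract setting: `M` a finite `G_ℚ`-module, `P` a valuation subring of `ℚ̄` over `p`, `ζ` a
primitive `p`-th root of unity, `L ⊆ M` a subgroup such that the inertia group `I` of `P` acts
trivially on `M / L` and by the cyclotomic character on `L`, and such that every Kummer character
`σ ↦ ζ ^ ξ (σ c - c)` of `{σ ∈ I : σ ζ = ζ}` is the Kummer character of a `P`-unit (peu ramifié).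

* `exists_unit601`     : the Kummer COCYCLE `σ ↦ ζ ^ ξ (σ c - c)` of the whole inertia group is the
                          coboundary of a `P`-unit (average over `I / I_ζ`, of order prime to `p`);
* `localCoordDatum601` : the unit eigenfunctions `m ↦ [m - c ∈ L] ζ ^ ξ (m - c) B_{c,ξ}` are
                          inertia-equivariant `P`-integral coordinates with `P`-polynomial addition
                          law, i.e. a `Fermat.Agent.S19.LocalCoordDatum` (input of the landed UNR).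
-/

set_option autoImplicit false
set_option linter.unusedSectionVars false
set_option linter.unusedVariables false
set_option linter.style.haveILetI false

namespace Fermat.Agent.S59.H601

open Fermat.Agent.S19
open Fermat.Agent.S14.H714 (nonunits_add_mem nonunits_mul_mem)

section Aux

variable (P : ValuationSubring Qb)

theorem sum_mem_nonunits601 {ι : Type*} (s : Finset ι) (f : ι → Qb)
    (h : ∀ i ∈ s, f i ∈ P.nonunits) : ∑ i ∈ s, f i ∈ P.nonunits := by
  classical
  induction s using Finset.induction_on with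
  | empty =>
    rw [Finset.sum_empty]
    exact P.nonunits.zero_mem
  | insert a s ha ih =>
    rw [Finset.sum_insert ha]
    exact nonunits_add_mem P (h a (Finset.mem_insert_self a s))
      (ih fun i hi => h i (Finset.mem_insert_of_mem hi))

theorem val_eq_one_of_mem601 {x : Qb} (hx : x ∈ P) (hx' : x⁻¹ ∈ P) (h0 : x ≠ 0) :
    P.valuation x = 1 := by
  have h1 : P.valuation x ≤ 1 := (ValuationSubring.valuation_le_one_iff P x).mpr hx
  have h2 : P.valuation x⁻¹ ≤ 1 := (ValuationSubring.valuation_le_one_iff P x⁻¹).mpr hx'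
  have h3 : P.valuation x * P.valuation x⁻¹ = 1 := by
    rw [← map_mul, mul_inv_cancel₀ h0, map_one]
  refine le_antisymm h1 ?_
  by_contra hcon
  have h4 : P.valuation x < 1 := not_le.mp hcon
  have h5 : P.valuation x * P.valuation x⁻¹ < 1 := by
    calc P.valuation x * P.valuation x⁻¹ ≤ P.valuation x * 1 := mul_le_mul_right h2 _
      _ = P.valuation x := mul_one _
      _ < 1 := h4
  rw [h3] at h5
  exact lt_irrefl _ h5

theorem mem_of_val_eq_one601 {x : Qb} (hx : P.valuation x = 1) : x ∈ P :=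
  (ValuationSubring.valuation_le_one_iff P x).mp hx.le

theorem inv_mem_of_val_eq_one601 {x : Qb} (hx : P.valuation x = 1) : x⁻¹ ∈ P := by
  rw [← ValuationSubring.valuation_le_one_iff, map_inv₀, hx, inv_one]

theorem ne_zero_of_val_eq_one601 {x : Qb} (hx : P.valuation x = 1) : x ≠ 0 := by
  rintro rfl
  rw [map_zero] at hx
  exact zero_ne_one hx

end Aux

section Local

variable {p : ℕ} [Fact p.Prime] {M : Type} [AddCommGroup M] {act : GalQ → M → M}

theorem act_zero601 (hact : IsContAddAction act) (σ : GalQ) : act σ 0 = 0 := by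
  have h := hact.act_add σ 0 0
  rw [add_zero] at h
  exact left_eq_add.mp h

theorem act_neg601 (hact : IsContAddAction act) (σ : GalQ) (a : M) : act σ (-a) = -act σ a := by
  have h := hact.act_add σ a (-a)
  rw [add_neg_cancel, act_zero601 hact] at h
  exact eq_neg_of_add_eq_zero_right h.symm

theorem act_sub601 (hact : IsContAddAction act) (σ : GalQ) (a b : M) :
    act σ (a - b) = act σ a - act σ b := by
  rw [sub_eq_add_neg, hact.act_add, act_neg601 hact, ← sub_eq_add_neg]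

variable (hact : IsContAddAction act) (P : ValuationSubring Qb) (hP : (p : Qb) ∈ P.nonunits)
  {ζ : Qb} (hζ : IsPrimitiveRoot ζ p) (L : AddSubgroup M)
  (hI : ∀ σ, IsInertiaAt P σ → ∀ m, act σ m - m ∈ L)
  (hL : ∀ σ, IsInertiaAt P σ → ∀ l ∈ L, act σ l = (om601 hζ σ).val • l)

include hact hI hL in
/-- The cocycle relation. -/
theorem xi_cocycle601 (ξ : M →+ ZMod p) (c : M) {σ τ : GalQ} (hσ : IsInertiaAt P σ)
    (hτ : IsInertiaAt P τ) :
    ξ (act (σ * τ) c - c) = om601 hζ σ * ξ (act τ c - c) + ξ (act σ c - c) := by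
  have h1 : act (σ * τ) c - c = act σ (act τ c - c) + (act σ c - c) := by
    rw [hact.act_mul, act_sub601 hact]
    abel
  rw [h1, map_add, hL σ hσ _ (hI τ hτ c), map_nsmul, nsmul_eq_mul, ZMod.natCast_zmod_val]

include hact hI hL in
/-- Translation by an element of `L`. -/
theorem xi_act601 (ξ : M →+ ZMod p) (c m : M) (hm : m - c ∈ L) {σ : GalQ}
    (hσ : IsInertiaAt P σ) :
    ξ (act σ m - c) = om601 hζ σ * ξ (m - c) + ξ (act σ c - c) := by
  have h1 : act σ m - c = act σ (m - c) + (act σ c - c) := by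
    rw [act_sub601 hact]
    abel
  rw [h1, map_add, hL σ hσ _ hm, map_nsmul, nsmul_eq_mul, ZMod.natCast_zmod_val]

include hI in
theorem act_sub_mem_iff601 (c m : M) {σ : GalQ} (hσ : IsInertiaAt P σ) :
    act σ m - c ∈ L ↔ m - c ∈ L := by
  have h1 : act σ m - c = (act σ m - m) + (m - c) := by abel
  rw [h1]
  exact L.add_mem_cancel_left (hI σ hσ m)

variable (hpeu : ∀ (ξ : M →+ ZMod p) (c : M), ∃ B : Qb, P.valuation B = 1 ∧
      ∀ σ, IsInertiaAt P σ → σ ζ = ζ → σ B = ez601 ζ (ξ (act σ c - c)) * B)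

include hact hP hI hL hpeu in
/-- **Averaging.**  The Kummer cocycle of the whole inertia group is the coboundary of a unit. -/
theorem exists_unit601 (ξ : M →+ ZMod p) (c : M) :
    ∃ B : Qb, P.valuation B = 1 ∧
      ∀ σ, IsInertiaAt P σ → σ B = ez601 ζ (ξ (act σ c - c)) * B := by
  classical
  have hp : p.Prime := Fact.out
  have hζp : ζ ^ p = 1 := hζ.pow_eq_one
  obtain ⟨B₀, hB₀, hB₀eq⟩ := hpeu ξ c
  have hB₀P : B₀ ∈ P := mem_of_val_eq_one601 P hB₀
  have hB₀0 : B₀ ≠ 0 := ne_zero_of_val_eq_one601 P hB₀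
  -- the cocycle
  let z : GalQ → Qb := fun σ => ez601 ζ (ξ (act σ c - c))
  have hz0 : ∀ σ, z σ ≠ 0 := fun σ => ez601_ne_zero hζp _
  have hzc : ∀ σ τ, IsInertiaAt P σ → IsInertiaAt P τ → z (σ * τ) = σ (z τ) * z σ := by
    intro σ τ hσ hτ
    show ez601 ζ _ = σ (ez601 ζ _) * ez601 ζ _
    rw [xi_cocycle601 hact P hζ L hI hL ξ c hσ hτ, ez601_add hζp, map_ez601 hζ]
  -- the translates
  let T : GalQ → Qb := fun γ => (z γ)⁻¹ * γ B₀
  have hT1 : ∀ γ γ', IsInertiaAt P γ → IsInertiaAt P γ' → om601 hζ γ = om601 hζ γ' →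
      T γ = T γ' := by
    intro γ γ' hγ hγ' hom
    have hτ : IsInertiaAt P (γ⁻¹ * γ') :=
      Fermat.Agent.S19.H859.IsInertiaAt_mul (Fermat.Agent.S19.H859.IsInertiaAt_inv hγ) hγ'
    have hγ'eq : γ' = γ * (γ⁻¹ * γ') := by group
    have homτ : om601 hζ (γ⁻¹ * γ') = 1 := by
      have h1 : om601 hζ γ' = om601 hζ γ * om601 hζ (γ⁻¹ * γ') := by
        conv_lhs => rw [hγ'eq]
        rw [om601_mul]
      rw [← hom] at h1
      have h2 : om601 hζ γ * om601 hζ (γ⁻¹ * γ') = om601 hζ γ * 1 := by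
        rw [mul_one]
        exact h1.symm
      exact mul_left_cancel₀ (om601_ne_zero hζ γ) h2
    have hfix : (γ⁻¹ * γ') ζ = ζ := (om601_eq_one_iff hζ _).mp homτ
    have hB := hB₀eq _ hτ hfix
    have hz' : z γ' = γ (z (γ⁻¹ * γ')) * z γ := by
      conv_lhs => rw [hγ'eq]
      exact hzc γ _ hγ hτ
    have hB' : γ' B₀ = γ (z (γ⁻¹ * γ')) * γ B₀ := by
      conv_lhs => rw [hγ'eq]
      show γ ((γ⁻¹ * γ') B₀) = _
      rw [hB, map_mul]
    show (z γ)⁻¹ * γ B₀ = (z γ')⁻¹ * γ' B₀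
    rw [hz', hB']
    have h3 : γ (z (γ⁻¹ * γ')) ≠ 0 := by
      rw [Ne, map_eq_zero]
      exact hz0 _
    field_simp
  have hT2 : ∀ σ γ, IsInertiaAt P σ → IsInertiaAt P γ → σ (T γ) = z σ * T (σ * γ) := by
    intro σ γ hσ hγ
    show σ ((z γ)⁻¹ * γ B₀) = z σ * ((z (σ * γ))⁻¹ * (σ * γ) B₀)
    rw [hzc σ γ hσ hγ, map_mul, map_inv₀]
    have h3 : σ (z γ) ≠ 0 := by
      rw [Ne, map_eq_zero]
      exact hz0 _
    have h4 : (σ * γ) B₀ = σ (γ B₀) := rfl
    rw [h4]
    field_simp [hz0 σ]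
  have hT3 : ∀ γ, IsInertiaAt P γ → T γ - B₀ ∈ P.nonunits := by
    intro γ hγ
    have h1 : T γ - B₀ = (z γ)⁻¹ * (γ B₀ - B₀) + ((z γ)⁻¹ - 1) * B₀ := by
      show (z γ)⁻¹ * γ B₀ - B₀ = _
      ring
    have hzinv : (z γ)⁻¹ ^ p = 1 := by
      rw [inv_pow, ez601_pow hζp, inv_one]
    rw [h1]
    refine nonunits_add_mem P ?_ ?_
    · rw [mul_comm]
      exact nonunits_mul_mem P (hγ B₀ hB₀P) (root_mem601 P hzinv)
    · exact nonunits_mul_mem P (root_sub_one_mem601 P hP hzinv) hB₀P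
  -- the average
  let Tf : ZMod p → Qb := fun a =>
    if h : ∃ γ, IsInertiaAt P γ ∧ om601 hζ γ = a then T h.choose else 0
  have hTf : ∀ γ, IsInertiaAt P γ → Tf (om601 hζ γ) = T γ := by
    intro γ hγ
    have h : ∃ γ', IsInertiaAt P γ' ∧ om601 hζ γ' = om601 hζ γ := ⟨γ, hγ, rfl⟩
    show (if h : ∃ γ', IsInertiaAt P γ' ∧ om601 hζ γ' = om601 hζ γ then T h.choose else 0) = T γ
    rw [dif_pos h]
    exact hT1 _ _ h.choose_spec.1 hγ h.choose_spec.2
  let S : Finset (ZMod p) :=
    Finset.univ.filter (fun a => ∃ γ, IsInertiaAt P γ ∧ om601 hζ γ = a)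
  have hS : ∀ a, a ∈ S ↔ ∃ γ, IsInertiaAt P γ ∧ om601 hζ γ = a := by
    intro a
    simp [S]
  have h1S : (1 : ZMod p) ∈ S :=
    (hS 1).mpr ⟨1, Fermat.Agent.S19.H859.isInertiaAt_one, om601_one hζ⟩
  have h0S : (0 : ZMod p) ∉ S := by
    intro h
    obtain ⟨γ, -, hγ⟩ := (hS 0).mp h
    exact om601_ne_zero hζ γ hγ
  have hcard : ¬ p ∣ S.card := by
    intro hdvd
    have hpos : 0 < S.card := Finset.card_pos.mpr ⟨1, h1S⟩
    have hle : S.card ≤ (Finset.univ.erase (0 : ZMod p)).card := by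
      apply Finset.card_le_card
      intro a ha
      rw [Finset.mem_erase]
      exact ⟨fun h => h0S (h ▸ ha), Finset.mem_univ a⟩
    rw [Finset.card_erase_of_mem (Finset.mem_univ _), Finset.card_univ, ZMod.card] at hle
    have := Nat.le_of_dvd hpos hdvd
    have hp1 : 1 ≤ p := hp.one_lt.le
    omega
  refine ⟨∑ a ∈ S, Tf a, ?_, ?_⟩
  · -- a unit
    have hsplit : ∑ a ∈ S, Tf a = ∑ a ∈ S, (Tf a - B₀) + (S.card : Qb) * B₀ := by
      rw [Finset.sum_sub_distrib, Finset.sum_const, nsmul_eq_mul]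
      ring
    have hsmall : ∑ a ∈ S, (Tf a - B₀) ∈ P.nonunits := by
      apply sum_mem_nonunits601
      intro a ha
      obtain ⟨γ, hγ, rfl⟩ := (hS a).mp ha
      rw [hTf γ hγ]
      exact hT3 γ hγ
    have hn0 : (S.card : Qb) ≠ 0 := by
      have : S.card ≠ 0 := fun h => hcard (h ▸ dvd_zero p)
      exact_mod_cast this
    have hnval : P.valuation (S.card : Qb) = 1 := by
      apply val_eq_one_of_mem601 P _ _ hn0
      · exact natCast_mem P S.card
      · exact Fermat.Agent.S19.Unr.H992.natCast_unit_of_not_dvd P hp hP hcard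
    have hbig : P.valuation ((S.card : Qb) * B₀) = 1 := by
      rw [map_mul, hnval, hB₀, mul_one]
    rw [hsplit]
    rw [Valuation.map_add_eq_of_lt_right, hbig]
    rw [hbig]
    exact (ValuationSubring.mem_nonunits_iff P).mp hsmall
  · -- equivariance
    intro σ hσ
    have hσi : IsInertiaAt P σ⁻¹ := Fermat.Agent.S19.H859.IsInertiaAt_inv hσ
    have hterm : ∀ a ∈ S, σ (Tf a) = z σ * Tf (om601 hζ σ * a) := by
      intro a ha
      obtain ⟨γ, hγ, rfl⟩ := (hS a).mp ha
      rw [hTf γ hγ, hT2 σ γ hσ hγ, ← om601_mul,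
        hTf (σ * γ) (Fermat.Agent.S19.H859.IsInertiaAt_mul hσ hγ)]
    have hinv : om601 hζ σ⁻¹ * om601 hζ σ = 1 := by
      rw [← om601_mul, inv_mul_cancel, om601_one]
    have hinv' : om601 hζ σ * om601 hζ σ⁻¹ = 1 := by
      rw [← om601_mul, mul_inv_cancel, om601_one]
    rw [map_sum, Finset.sum_congr rfl hterm, ← Finset.mul_sum]
    show z σ * _ = z σ * _
    congr 1
    refine Finset.sum_nbij' (fun a => om601 hζ σ * a) (fun b => om601 hζ σ⁻¹ * b) ?_ ?_ ?_ ?_ ?_
    · intro a ha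
      obtain ⟨γ, hγ, rfl⟩ := (hS a).mp ha
      exact (hS _).mpr ⟨σ * γ, Fermat.Agent.S19.H859.IsInertiaAt_mul hσ hγ, om601_mul hζ σ γ⟩
    · intro b hb
      obtain ⟨γ, hγ, rfl⟩ := (hS b).mp hb
      exact (hS _).mpr ⟨σ⁻¹ * γ, Fermat.Agent.S19.H859.IsInertiaAt_mul hσi hγ,
        om601_mul hζ σ⁻¹ γ⟩
    · intro a _
      show om601 hζ σ⁻¹ * (om601 hζ σ * a) = a
      rw [← mul_assoc, hinv, one_mul]
    · intro b _
      show om601 hζ σ * (om601 hζ σ⁻¹ * b) = b
      rw [← mul_assoc, hinv', one_mul]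
    · intro a _
      rfl

end Local

end Fermat.Agent.S59.H601
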