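import Fermat.Agent.S19.Unr.H992.Unr

/-!
# S59 / TW-STRICT / PEU-FLAT (helper601), part 1: `p`-th roots of unity

`ζ` a primitive `p`-th root of unity in `ℚ̄`.

* `ez601 ζ x = ζ ^ x.val` (`x : ZMod p`): the additive character `𝔽_p → μ_p`;
* `om601 hζ σ : ZMod p`: the mod `p` cyclotomic character, `σ ζ = ζ ^ (om601 hζ σ).val`;
* `root_mem601`, `root_sub_one_mem601`: a `p`-th root of unity is a unit `≡ 1` at every valuation
  subring over `p`.
-/

set_option autoImplicit false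
set_option linter.unusedSectionVars false
set_option linter.style.haveILetI false

namespace Fermat.Agent.S59.H601

open Fermat.Agent.S19

section Roots

variable {p : ℕ} [Fact p.Prime]

/-- The additive character `x ↦ ζ ^ x`. -/
noncomputable def ez601 (ζ : Qb) (x : ZMod p) : Qb := ζ ^ x.val

theorem ez601_zero (ζ : Qb) : ez601 ζ (0 : ZMod p) = 1 := by
  simp [ez601]

theorem ez601_add {ζ : Qb} (hζ : ζ ^ p = 1) (x y : ZMod p) :
    ez601 ζ (x + y) = ez601 ζ x * ez601 ζ y := by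
  unfold ez601
  rw [ZMod.val_add, ← pow_add, ← pow_eq_pow_mod _ hζ]

theorem ez601_mul {ζ : Qb} (hζ : ζ ^ p = 1) (a x : ZMod p) :
    ez601 ζ (a * x) = (ζ ^ a.val) ^ x.val := by
  unfold ez601
  rw [ZMod.val_mul, ← pow_mul, ← pow_eq_pow_mod _ hζ]

theorem ez601_pow {ζ : Qb} (hζ : ζ ^ p = 1) (x : ZMod p) : ez601 ζ x ^ p = 1 := by
  unfold ez601
  rw [← pow_mul, mul_comm, pow_mul, hζ, one_pow]

theorem ez601_ne_zero {ζ : Qb} (hζ : ζ ^ p = 1) (x : ZMod p) : ez601 ζ x ≠ 0 := by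
  intro h
  have := ez601_pow hζ x
  rw [h, zero_pow (Fact.out : p.Prime).ne_zero] at this
  exact zero_ne_one this

theorem ez601_eq_one_iff {ζ : Qb} (hζ : IsPrimitiveRoot ζ p) (x : ZMod p) :
    ez601 ζ x = 1 ↔ x = 0 := by
  constructor
  · intro h
    unfold ez601 at h
    have h1 := (hζ.pow_eq_one_iff_dvd x.val).mp h
    have h2 : x.val < p := ZMod.val_lt x
    have h3 : x.val = 0 := Nat.eq_zero_of_dvd_of_lt h1 h2
    exact (ZMod.val_eq_zero x).mp h3
  · rintro rfl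
    exact ez601_zero ζ

theorem ez601_neg_mul {ζ : Qb} (hζ : ζ ^ p = 1) (x : ZMod p) :
    ez601 ζ (-x) * ez601 ζ x = 1 := by
  rw [← ez601_add hζ, neg_add_cancel, ez601_zero]

theorem exists_om601 {ζ : Qb} (hζ : IsPrimitiveRoot ζ p) (σ : GalQ) :
    ∃ a : ZMod p, σ ζ = ζ ^ a.val := by
  have h1 : (σ ζ) ^ p = 1 := by rw [← map_pow, hζ.pow_eq_one, map_one]
  obtain ⟨i, hi, hi'⟩ := hζ.eq_pow_of_pow_eq_one h1
  refine ⟨(i : ZMod p), ?_⟩
  rw [ZMod.val_natCast_of_lt hi, hi']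

/-- The mod `p` cyclotomic character. -/
noncomputable def om601 {ζ : Qb} (hζ : IsPrimitiveRoot ζ p) (σ : GalQ) : ZMod p :=
  (exists_om601 hζ σ).choose

theorem map_zeta601 {ζ : Qb} (hζ : IsPrimitiveRoot ζ p) (σ : GalQ) :
    σ ζ = ζ ^ (om601 hζ σ).val :=
  (exists_om601 hζ σ).choose_spec

theorem om601_unique {ζ : Qb} (hζ : IsPrimitiveRoot ζ p) (σ : GalQ) {a : ZMod p}
    (h : σ ζ = ζ ^ a.val) : om601 hζ σ = a := by
  have h1 := map_zeta601 hζ σ
  rw [h] at h1
  have h2 := hζ.pow_inj (ZMod.val_lt a) (ZMod.val_lt _) h1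
  exact (ZMod.val_injective p h2).symm

theorem map_ez601 {ζ : Qb} (hζ : IsPrimitiveRoot ζ p) (σ : GalQ) (x : ZMod p) :
    σ (ez601 ζ x) = ez601 ζ (om601 hζ σ * x) := by
  rw [ez601_mul hζ.pow_eq_one, ← map_zeta601 hζ σ]
  unfold ez601
  rw [map_pow]

theorem om601_one {ζ : Qb} (hζ : IsPrimitiveRoot ζ p) : om601 hζ (1 : GalQ) = 1 := by
  apply om601_unique
  have : (1 : ZMod p).val = 1 := by
    haveI : Fact (1 < p) := ⟨(Fact.out : p.Prime).one_lt⟩
    exact ZMod.val_one p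
  rw [this, pow_one]
  rfl

theorem om601_mul {ζ : Qb} (hζ : IsPrimitiveRoot ζ p) (σ τ : GalQ) :
    om601 hζ (σ * τ) = om601 hζ σ * om601 hζ τ := by
  apply om601_unique
  show σ (τ ζ) = _
  rw [map_zeta601 hζ τ]
  have := map_ez601 hζ σ (om601 hζ τ)
  unfold ez601 at this
  exact this

theorem om601_eq_one_iff {ζ : Qb} (hζ : IsPrimitiveRoot ζ p) (σ : GalQ) :
    om601 hζ σ = 1 ↔ σ ζ = ζ := by
  have h1 : (1 : ZMod p).val = 1 := by
    haveI : Fact (1 < p) := ⟨(Fact.out : p.Prime).one_lt⟩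
    exact ZMod.val_one p
  constructor
  · intro h
    rw [map_zeta601 hζ σ, h, h1, pow_one]
  · intro h
    apply om601_unique
    rw [h1, pow_one, h]

theorem om601_ne_zero {ζ : Qb} (hζ : IsPrimitiveRoot ζ p) (σ : GalQ) : om601 hζ σ ≠ 0 := by
  intro h
  have h1 := map_zeta601 hζ σ
  rw [h, ZMod.val_zero, pow_zero] at h1
  have h2 : ζ = 1 := by
    have : σ ζ = σ 1 := by rw [h1, map_one]
    exact σ.injective this
  have h3 := hζ.pow_eq_one_iff_dvd 1
  rw [pow_one] at h3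
  have h4 := h3.mp h2
  exact (Fact.out : p.Prime).one_lt.ne' (Nat.dvd_one.mp h4)

end Roots

section Val

variable {p : ℕ} [Fact p.Prime] (P : ValuationSubring Qb)

/-- A `p`-th root of unity has valuation one. -/
theorem root_val601 {y : Qb} (hy : y ^ p = 1) : P.valuation y = 1 := by
  have h1 : P.valuation y ^ p = 1 := by rw [← map_pow, hy, map_one]
  exact (pow_eq_one_iff_of_nonneg zero_le (Fact.out : p.Prime).ne_zero).mp h1

theorem root_mem601 {y : Qb} (hy : y ^ p = 1) : y ∈ P := by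
  rw [← ValuationSubring.valuation_le_one_iff, root_val601 P hy]

/-- A `p`-th root of unity is `≡ 1` at every valuation subring over `p`. -/
theorem root_sub_one_mem601 (hP : (p : Qb) ∈ P.nonunits) {y : Qb} (hy : y ^ p = 1) :
    y - 1 ∈ P.nonunits := by
  have hp : p.Prime := Fact.out
  have hyP := root_mem601 P hy
  obtain ⟨r, hr⟩ := exists_add_pow_prime_eq hp (⟨y, hyP⟩ - 1 : P) 1
  have h1 : ((⟨y, hyP⟩ - 1 : P) + 1) ^ p = 1 := by
    rw [sub_add_cancel]
    exact Subtype.ext hy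
  rw [h1, one_pow] at hr
  have h2 : (⟨y, hyP⟩ - 1 : P) ^ p = -((p : P) * (⟨y, hyP⟩ - 1) * 1 * r) := by
    linear_combination -hr
  have h3 : (y - 1) ^ p = -((p : Qb) * (y - 1) * 1 * (r : Qb)) := by
    have := congrArg (Subtype.val : P → Qb) h2
    simpa using this
  rw [ValuationSubring.mem_nonunits_iff] at hP ⊢
  by_contra hcon
  have h4 : P.valuation (y - 1) = 1 := by
    have h5 : P.valuation (y - 1) ≤ 1 := by
      rw [ValuationSubring.valuation_le_one_iff]
      exact P.toSubring.sub_mem hyP P.one_mem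
    exact le_antisymm h5 (not_lt.mp hcon)
  have h6 : P.valuation ((y - 1) ^ p) = 1 := by rw [map_pow, h4, one_pow]
  rw [h3, Valuation.map_neg, map_mul, map_mul, map_mul, h4, map_one, mul_one, mul_one] at h6
  have h7 : P.valuation (r : Qb) ≤ 1 := by
    rw [ValuationSubring.valuation_le_one_iff]
    exact r.2
  have h8 : P.valuation (p : Qb) * P.valuation (r : Qb) < 1 := by
    calc P.valuation (p : Qb) * P.valuation (r : Qb) ≤ P.valuation (p : Qb) * 1 :=
          mul_le_mul_right h7 _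
      _ = P.valuation (p : Qb) := mul_one _
      _ < 1 := hP
  rw [h6] at h8
  exact lt_irrefl _ h8

end Val

end Fermat.Agent.S59.H601
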