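import Fermat.Agent.S59.H601.PeuLocal

/-!
# S59 / NMP-SEL (F) (helper601), part 1: `N`-th roots of unity

`ζ` a primitive `N`-th root of unity in `ℚ̄` (`N ≠ 0`; in the application `N = p ^ n`).

* `ezN601 ζ x = ζ ^ x.val` (`x : ZMod N`): the additive character `ℤ/N → μ_N`;
* `omN601 hζ σ : ZMod N`: the mod `N` cyclotomic character, `σ ζ = ζ ^ (omN601 hζ σ).val`;
* `root_valN601`: an `N`-th root of unity is a unit at every valuation subring.
-/

set_option autoImplicit false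
set_option linter.unusedSectionVars false
set_option linter.style.haveILetI false

namespace Fermat.Agent.S59.H601

open Fermat.Agent.S19

section RootsN

variable {N : ℕ} [NeZero N]

/-- The additive character `x ↦ ζ ^ x`. -/
noncomputable def ezN601 (ζ : Qb) (x : ZMod N) : Qb := ζ ^ x.val

theorem ezN601_zero (ζ : Qb) : ezN601 ζ (0 : ZMod N) = 1 := by
  simp [ezN601]

theorem ezN601_add {ζ : Qb} (hζ : ζ ^ N = 1) (x y : ZMod N) :
    ezN601 ζ (x + y) = ezN601 ζ x * ezN601 ζ y := by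
  unfold ezN601
  rw [ZMod.val_add, ← pow_add, ← pow_eq_pow_mod _ hζ]

theorem ezN601_mul {ζ : Qb} (hζ : ζ ^ N = 1) (a x : ZMod N) :
    ezN601 ζ (a * x) = (ζ ^ a.val) ^ x.val := by
  unfold ezN601
  rw [ZMod.val_mul, ← pow_mul, ← pow_eq_pow_mod _ hζ]

theorem ezN601_pow {ζ : Qb} (hζ : ζ ^ N = 1) (x : ZMod N) : ezN601 ζ x ^ N = 1 := by
  unfold ezN601
  rw [← pow_mul, mul_comm, pow_mul, hζ, one_pow]

theorem ezN601_ne_zero {ζ : Qb} (hζ : ζ ^ N = 1) (x : ZMod N) : ezN601 ζ x ≠ 0 := by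
  intro h
  have := ezN601_pow hζ x
  rw [h, zero_pow (NeZero.ne N)] at this
  exact zero_ne_one this

theorem ezN601_eq_one_iff {ζ : Qb} (hζ : IsPrimitiveRoot ζ N) (x : ZMod N) :
    ezN601 ζ x = 1 ↔ x = 0 := by
  constructor
  · intro h
    unfold ezN601 at h
    have h1 := (hζ.pow_eq_one_iff_dvd x.val).mp h
    have h2 : x.val < N := ZMod.val_lt x
    have h3 : x.val = 0 := Nat.eq_zero_of_dvd_of_lt h1 h2
    exact (ZMod.val_eq_zero x).mp h3
  · rintro rfl
    exact ezN601_zero ζ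

theorem exists_omN601 {ζ : Qb} (hζ : IsPrimitiveRoot ζ N) (σ : GalQ) :
    ∃ a : ZMod N, σ ζ = ζ ^ a.val := by
  have h1 : (σ ζ) ^ N = 1 := by rw [← map_pow, hζ.pow_eq_one, map_one]
  obtain ⟨i, hi, hi'⟩ := hζ.eq_pow_of_pow_eq_one h1
  refine ⟨(i : ZMod N), ?_⟩
  rw [ZMod.val_natCast_of_lt hi, hi']

/-- The mod `N` cyclotomic character. -/
noncomputable def omN601 {ζ : Qb} (hζ : IsPrimitiveRoot ζ N) (σ : GalQ) : ZMod N :=
  (exists_omN601 hζ σ).choose

theorem map_zetaN601 {ζ : Qb} (hζ : IsPrimitiveRoot ζ N) (σ : GalQ) :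
    σ ζ = ζ ^ (omN601 hζ σ).val :=
  (exists_omN601 hζ σ).choose_spec

theorem map_ezN601 {ζ : Qb} (hζ : IsPrimitiveRoot ζ N) (σ : GalQ) (x : ZMod N) :
    σ (ezN601 ζ x) = ezN601 ζ (omN601 hζ σ * x) := by
  rw [ezN601_mul hζ.pow_eq_one, ← map_zetaN601 hζ σ]
  unfold ezN601
  rw [map_pow]

/-- `σ` raises every `N`-th root of unity to the power `omN601 hζ σ`. -/
theorem map_rootN601 {ζ : Qb} (hζ : IsPrimitiveRoot ζ N) (σ : GalQ) {μ : Qb} (hμ : μ ^ N = 1) :
    σ μ = μ ^ (omN601 hζ σ).val := by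
  obtain ⟨i, -, rfl⟩ := hζ.eq_pow_of_pow_eq_one hμ
  rw [map_pow, map_zetaN601 hζ σ, ← pow_mul, ← pow_mul, mul_comm]

end RootsN

section ValN

variable {N : ℕ} [NeZero N] (P : ValuationSubring Qb)

/-- An `N`-th root of unity has valuation one. -/
theorem root_valN601 {y : Qb} (hy : y ^ N = 1) : P.valuation y = 1 := by
  have h1 : P.valuation y ^ N = 1 := by rw [← map_pow, hy, map_one]
  exact (pow_eq_one_iff_of_nonneg zero_le (NeZero.ne N)).mp h1

theorem root_memN601 {y : Qb} (hy : y ^ N = 1) : y ∈ P := by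
  rw [← ValuationSubring.valuation_le_one_iff, root_valN601 P hy]

end ValN

section LocalN

variable {N : ℕ} [NeZero N] {M : Type} [AddCommGroup M] {act : GalQ → M → M}
  (hact : IsContAddAction act) (P : ValuationSubring Qb)
  {ζ : Qb} (hζ : IsPrimitiveRoot ζ N) (L : AddSubgroup M)
  (hI : ∀ σ, IsInertiaAt P σ → ∀ m, act σ m - m ∈ L)
  (hL : ∀ σ, IsInertiaAt P σ → ∀ l ∈ L, act σ l = (omN601 hζ σ).val • l)

include hact hI hL in
/-- Translation by an element of `L`. -/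
theorem xi_actN601 (ξ : M →+ ZMod N) (c m : M) (hm : m - c ∈ L) {σ : GalQ}
    (hσ : IsInertiaAt P σ) :
    ξ (act σ m - c) = omN601 hζ σ * ξ (m - c) + ξ (act σ c - c) := by
  have h1 : act σ m - c = act σ (m - c) + (act σ c - c) := by
    rw [act_sub601 hact]
    abel
  rw [h1, map_add, hL σ hσ _ hm, map_nsmul, nsmul_eq_mul, ZMod.natCast_zmod_val]

include hI in
theorem act_sub_mem_iffN601 (c m : M) {σ : GalQ} (hσ : IsInertiaAt P σ) :
    act σ m - c ∈ L ↔ m - c ∈ L := by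
  have h1 : act σ m - c = (act σ m - m) + (m - c) := by abel
  rw [h1]
  exact L.add_mem_cancel_left (hI σ hσ m)

end LocalN

end Fermat.Agent.S59.H601
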